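import Fermat.Agent.Mazur.Moduli.PlaceFix
import Fermat.Agent.LOC.Minkowski

/-! # The Galois-fixed place of `X₀(N)` attached to `(W, Q)` -/

set_option autoImplicit false

open Polynomial AlgebraicCurve ModularCurve Fermat.Agent.S28
open WeierstrassCurve WeierstrassCurve.Affine Fermat.Agent.ECRed Fermat.Agent.LOC
open Fermat.Agent.RedHom

namespace Fermat.Agent.Mazur.Moduli

section Val

variable {K Γ₀ : Type*} [Field K] [LinearOrderedCommGroupWithZero Γ₀] {v : Valuation K Γ₀}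

theorem v_int_le (v : Valuation K Γ₀) (n : ℤ) : v (n : K) ≤ 1 := by
  have h : ∀ m : ℕ, v (m : K) ≤ 1 := by
    intro m
    induction m with
    | zero => simp
    | succ m ih => rw [Nat.cast_succ]; exact v.map_add_le ih v.map_one.le
  rcases Int.eq_nat_or_neg n with ⟨m, rfl | rfl⟩
  · rw [Int.cast_natCast]; exact h m
  · rw [Int.cast_neg, Valuation.map_neg, Int.cast_natCast]; exact h m

theorem v_eval₂_le {t : K} (ht : 1 ≤ v t) {c : ℤ[X]} {d : ℕ} (hd : c.natDegree ≤ d) :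
    v (c.eval₂ (Int.castRingHom K) t) ≤ v t ^ d := by
  rw [eval₂_eq_sum_range]
  refine v.map_sum_le fun i hi => ?_
  rw [Finset.mem_range] at hi
  rw [map_mul, map_pow, ← one_mul (v t ^ d)]
  exact mul_le_mul' (v_int_le v _) (pow_le_pow_right₀ ht (by omega))

variable {N : ℕ} {Φ : ℤ[X][X]}

theorem coeff_phiR {S : Type*} [CommRing S] (Φ : ℤ[X][X]) (b : S) (k : ℕ) :
    (PhiR Φ b).coeff k = (Φ.coeff k).eval₂ (Int.castRingHom S) b := by
  rw [PhiR, coeff_map]; rfl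

/-- The root `a` of `Φ(X; b)` is simple if `v(b)^N = v(a) > 1`. -/
theorem deriv_ne_zero (hN : 2 ≤ N) (h : DR.Mod2.ModPolyShape N Φ) {a b : K} (ha : 1 < v a)
    (hb : v b ^ N = v a) (hab : (PhiR Φ b).eval a = 0) :
    (derivative (PhiR Φ b)).eval a ≠ 0 := by
  have hvb : 1 < v b := by
    by_contra hlt
    push Not at hlt
    exact absurd (hb ▸ pow_le_one₀ zero_le hlt : v a ≤ 1) (not_le.mpr ha)
  have hba : v b ≤ v a := by
    rw [← hb]; exact le_self_pow₀ hvb.le (by omega)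
  set P := PhiR Φ b with hP
  have hdeg : P.natDegree = N + 1 := by rw [hP, PhiR_natDegree h.monic, h.natDegree_eq]
  have hlead : P.coeff (N + 1) = 1 := by
    have := (PhiR_monic h.monic b).coeff_natDegree
    rwa [← hP, hdeg] at this
  have e1 : P.eval a = ∑ k ∈ Finset.range (N + 2), P.coeff k * a ^ k := by
    rw [eval_eq_sum_range, hdeg]
  have e2 : a * (derivative P).eval a =
      ∑ k ∈ Finset.range (N + 2), (k : K) * (P.coeff k * a ^ k) := by
    have h1 : (derivative P).natDegree < N + 1 := by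
      have := natDegree_derivative_lt (p := P) (by omega)
      omega
    rw [eval_eq_sum_range' h1, Finset.mul_sum, Finset.sum_range_succ' _ (N + 1)]
    simp only [Nat.cast_zero, zero_mul, add_zero]
    refine Finset.sum_congr rfl fun k _ => ?_
    rw [coeff_derivative]
    push_cast
    ring
  have e3 : a * (derivative P).eval a = a ^ (N + 1) +
      ∑ k ∈ Finset.range N, ((k : K) - N) * (P.coeff k * a ^ k) := by
    have h1 : a * (derivative P).eval a = a * (derivative P).eval a - N * P.eval a := by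
      rw [hab, mul_zero, sub_zero]
    rw [h1, e2, e1, Finset.mul_sum, ← Finset.sum_sub_distrib, Finset.sum_range_succ,
      Finset.sum_range_succ, hlead]
    have : ∀ k : ℕ, (k : K) * (P.coeff k * a ^ k) - N * (P.coeff k * a ^ k) =
      ((k : K) - N) * (P.coeff k * a ^ k) := fun k => by ring
    simp only [this]
    push_cast
    ring
  have ha0 : 0 < v a := lt_trans zero_lt_one ha
  have h4 : v (∑ k ∈ Finset.range N, ((k : K) - N) * (P.coeff k * a ^ k)) ≤ v a ^ N := by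
    refine v.map_sum_le fun k hk => ?_
    rw [Finset.mem_range] at hk
    have h5 : v ((k : K) - N) ≤ 1 := by
      have := v_int_le v ((k : ℤ) - N)
      push_cast at this
      exact this
    rw [map_mul, ← one_mul (v a ^ N)]
    refine mul_le_mul' h5 ?_
    rw [map_mul, map_pow, coeff_phiR]
    rcases Nat.eq_zero_or_pos k with rfl | hk0
    · rw [pow_zero, mul_one]
      refine (v_eval₂_le hvb.le h.natDegree_zero).trans ?_
      rw [pow_succ, hb]
      calc v a * v b ≤ v a * v a := by gcongr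
        _ = v a ^ 2 := (sq _).symm
        _ ≤ v a ^ N := pow_le_pow_right₀ ha.le hN
    · refine (mul_le_mul' (v_eval₂_le hvb.le (h.natDegree_coeff k hk0 hk.le)) le_rfl).trans ?_
      rw [hb, ← pow_succ']
      exact pow_le_pow_right₀ ha.le (by omega)
  have h6 : v (a * (derivative P).eval a) = v a ^ (N + 1) := by
    rw [e3, v.map_add_eq_of_lt_left, map_pow]
    rw [map_pow]
    exact lt_of_le_of_lt h4 (pow_lt_pow_right₀ ha (by omega))
  intro h0
  rw [h0, mul_zero, map_zero] at h6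
  exact (pow_ne_zero _ ha0.ne') h6.symm

/-- The roots of `Φ(X; a)`: if all roots but one have `v(r)^N = v(a)`, the last one has
`v(r) = v(a)^N`. -/
theorem v_last_root {ι : Type*} [Fintype ι] [DecidableEq ι] (hι : Fintype.card ι = N + 1)
    (hN : 2 ≤ N) (h : DR.Mod2.ModPolyShape N Φ) {a : K} (ha : 1 < v a) {r : ι → K}
    (hr : PhiR Φ a = ∏ i, (X - C (r i))) (i₀ : ι) (hi : ∀ i, i ≠ i₀ → v (r i) ^ N = v a) :
    v (r i₀) = v a ^ N := by
  have ha0 : 0 < v a := lt_trans zero_lt_one ha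
  have e1 : (PhiR Φ a).coeff N = - ∑ i, r i := by
    have := prod_X_sub_C_coeff_card_pred Finset.univ r (by rw [Finset.card_univ, hι]; omega)
    rw [Finset.card_univ, hι, Nat.add_sub_cancel] at this
    rw [hr, this]
  have hdeg : (Φ.coeff N + X ^ N).natDegree ≤ N - 1 := by
    rw [natDegree_le_iff_coeff_eq_zero]
    intro k hk
    rw [coeff_add, coeff_X_pow]
    rcases eq_or_ne k N with rfl | hkN
    · rw [h.coeff_coeff, if_pos rfl]; norm_num
    · rw [if_neg hkN, add_zero]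
      exact coeff_eq_zero_of_natDegree_lt
        (lt_of_le_of_lt (h.natDegree_coeff N (by omega) le_rfl) (by omega))
  have e2 : v ((PhiR Φ a).coeff N) = v a ^ N := by
    have h1 : (PhiR Φ a).coeff N = -a ^ N +
        (Φ.coeff N + X ^ N).eval₂ (Int.castRingHom K) a := by
      rw [coeff_phiR, eval₂_add, eval₂_X_pow]; ring
    rw [h1, v.map_add_eq_of_lt_left]
    · rw [Valuation.map_neg, map_pow]
    · rw [Valuation.map_neg, map_pow]
      exact lt_of_le_of_lt (v_eval₂_le ha.le hdeg) (pow_lt_pow_right₀ ha (by omega))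
  have e3 : v (∑ i ∈ Finset.univ.erase i₀, r i) ≤ v a := by
    refine v.map_sum_le fun i hi' => ?_
    have h1 := hi i (Finset.ne_of_mem_erase hi')
    have h2 : 1 ≤ v (r i) := by
      by_contra hlt
      push Not at hlt
      exact absurd (h1 ▸ pow_le_one₀ zero_le hlt.le : v a ≤ 1) (not_le.mpr ha)
    rw [← h1]
    exact le_self_pow₀ h2 (by omega)
  have e4 : r i₀ = -(PhiR Φ a).coeff N - ∑ i ∈ Finset.univ.erase i₀, r i := by
    rw [e1, ← Finset.add_sum_erase _ _ (Finset.mem_univ i₀)]; ring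
  rw [e4, sub_eq_add_neg, v.map_add_eq_of_lt_left]
  · rw [Valuation.map_neg, e2]
  · rw [Valuation.map_neg, Valuation.map_neg, e2]
    refine lt_of_le_of_lt e3 ?_
    calc v a = v a ^ 1 := (pow_one _).symm
      _ < v a ^ N := pow_lt_pow_right₀ ha (by omega)

end Val

section Final

local notation "Qb" => AlgebraicClosure ℚ

theorem px_smul (W : WeierstrassCurve ℤ) (σ : Qb ≃ₐ[ℚ] Qb) (P : (EQ W).toAffine.Point) :
    px (σ • (P : ((W.map (Int.castRingHom ℚ))⁄(AlgebraicClosure ℚ)).Point) :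
      (EQ W).toAffine.Point) = σ (px P) := by
  rcases P with _ | ⟨x, y, h⟩
  · exact (map_zero σ).symm
  · rfl

theorem sigma_jq (W : WeierstrassCurve ℤ) (σ : Qb ≃ₐ[ℚ] Qb) : σ (jq (EQ W)) = jq (EQ W) := by
  rw [jq, map_div₀, map_pow, baseChange_int_c₄, baseChange_int_Δ, map_intCast,
    map_intCast]

theorem sigma_a (W : WeierstrassCurve ℤ) (σ : Qb ≃ₐ[ℚ] Qb) :
    σ (EQ W).a₁ = (EQ W).a₁ ∧ σ (EQ W).a₂ = (EQ W).a₂ ∧ σ (EQ W).a₃ = (EQ W).a₃ ∧
      σ (EQ W).a₄ = (EQ W).a₄ ∧ σ (EQ W).a₆ = (EQ W).a₆ :=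
  ⟨σ.commutes _, σ.commutes _, σ.commutes _, σ.commutes _, σ.commutes _⟩

theorem sigma_veluJ (W : WeierstrassCurve ℤ) (σ : Qb ≃ₐ[ℚ] Qb) (P : (EQ W).toAffine.Point)
    (hP : (σ • (P : ((W.map (Int.castRingHom ℚ))⁄(AlgebraicClosure ℚ)).Point) :
      ((W.map (Int.castRingHom ℚ))⁄(AlgebraicClosure ℚ)).Point) = P) (N : ℕ) :
    σ (veluJ (EQ W) P N) = veluJ (EQ W) P N := by
  obtain ⟨h1, h2, h3, h4, h6⟩ := sigma_a W σ
  have hk : ∀ k : ℕ, σ (px (k • P)) = px (k • P) := by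
    intro k
    rw [← px_smul]
    congr 1
    have : (σ • (k • (P : ((W.map (Int.castRingHom ℚ))⁄(AlgebraicClosure ℚ)).Point)) :
      ((W.map (Int.castRingHom ℚ))⁄(AlgebraicClosure ℚ)).Point) =
      k • (σ • (P : ((W.map (Int.castRingHom ℚ))⁄(AlgebraicClosure ℚ)).Point)) :=
      map_nsmul (DistribSMul.toAddMonoidHom
        ((W.map (Int.castRingHom ℚ))⁄(AlgebraicClosure ℚ)).Point σ) k P
    exact this.trans (by rw [hP])
  have hT : σ (veluT (EQ W) P N) = veluT (EQ W) P N := by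
    rw [veluT, map_sum]
    refine Finset.sum_congr rfl fun k _ => ?_
    simp only [vt, WeierstrassCurve.b₂, WeierstrassCurve.b₄, map_add, map_mul, map_pow,
      map_ofNat, hk, h1, h2, h3, h4]
  have hW : σ (veluW (EQ W) P N) = veluW (EQ W) P N := by
    rw [veluW, map_sum]
    refine Finset.sum_congr rfl fun k _ => ?_
    simp only [vw, WeierstrassCurve.b₂, WeierstrassCurve.b₄, WeierstrassCurve.b₆, map_add,
      map_mul, map_pow, map_ofNat, hk, h1, h2, h3, h4, h6]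
  simp only [veluJ, jq, velu, veluC, WeierstrassCurve.c₄, WeierstrassCurve.Δ, WeierstrassCurve.b₂,
    WeierstrassCurve.b₄, WeierstrassCurve.b₆, WeierstrassCurve.b₈, map_div₀, map_sub, map_add,
    map_mul, map_pow, map_neg, map_ofNat, hT, hW, h1, h2, h3, h4, h6]

theorem one_lt_v_jq (W : WeierstrassCurve ℤ) {ℓ : ℕ} {A : ValuationSubring Qb} (hΔ : W.Δ ≠ 0)
    (hℓ : ℓ.Prime) (hℓΔ : (ℓ : ℤ) ∣ W.Δ) (hℓc : ¬ (ℓ : ℤ) ∣ W.c₄) (hA : A.LiesOverPrime ℓ) :
    1 < A.valuation (jq (EQ W)) := by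
  have h1 : A.valuation ((W.c₄ : ℤ) : Qb) = 1 :=
    valuation_int_eq_one A hA
      ((Nat.prime_iff_prime_int.mp hℓ).coprime_iff_not_dvd.mpr hℓc).symm
  have h2 : A.valuation ((W.Δ : ℤ) : Qb) < 1 := valuation_int_lt_one A hA hℓΔ
  have h3 : ((W.Δ : ℤ) : Qb) ≠ 0 := by exact_mod_cast hΔ
  rw [jq, baseChange_int_c₄, baseChange_int_Δ, map_div₀, map_pow, h1, one_pow,
    one_lt_div₀ ((Valuation.pos_iff _).mpr h3)]
  exact h2

/-- **B3**: the Galois-fixed place of `X₀(N)` attached to `(W, Q)`, with its `j`-invariants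
`a = j(W)`, `b = j(W/⟨Q⟩)` and their valuations at the multiplicative primes. -/
theorem exists_fixed_place (W : WeierstrassCurve ℤ) (hΔ : W.Δ ≠ 0) {N : ℕ} [hp : Fact N.Prime]
    (hN2 : N ≠ 2) {Φ : ℤ[X][X]} (hΦ : ModPolySpec N Φ)
    (Q : ((W.map (Int.castRingHom ℚ))⁄(AlgebraicClosure ℚ)).Point)
    (hQfix : ∀ σ : AlgebraicClosure ℚ ≃ₐ[ℚ] AlgebraicClosure ℚ, σ • Q = Q)
    (hQord : addOrderOf Q = N) {q : ℕ} (hq : q.Prime) (hqN : N ≠ q)
    (hqΔ : (q : ℤ) ∣ W.Δ) (hqc : ¬ (q : ℤ) ∣ W.c₄)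
    (hqQ : ∀ A : ValuationSubring (AlgebraicClosure ℚ), A.LiesOverPrime q →
      ¬ W.InZeroComponentAt A Q) :
    ∃ (b : Qb) (x : Place Qb (modularFunctionFieldBar N)),
      (∀ y : modularFunctionFieldBar N, (y : LaurentSeries Qb) = jqModC Qb →
        0 < x.ord (y - algebraMap _ _ (jq (EQ W)))) ∧
      (∀ y : modularFunctionFieldBar N, (y : LaurentSeries Qb) = qExpand Qb N (jqModC Qb) →
        0 < x.ord (y - algebraMap _ _ b)) ∧
      (∀ σ : Qb ≃ₐ[ℚ] Qb, arithmeticGalois (modularFunctionFieldFull N) σ • x = x) ∧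
      (∀ σ : Qb ≃ₐ[ℚ] Qb, σ b = b) ∧
      (∀ {ℓ : ℕ} (_ : ℓ.Prime) (_ : N ≠ ℓ) (_ : (ℓ : ℤ) ∣ W.Δ) (_ : ¬ (ℓ : ℤ) ∣ W.c₄)
        (A : ValuationSubring Qb) (_ : A.LiesOverPrime ℓ),
        (¬ W.InZeroComponentAt A Q → A.valuation b ^ N = A.valuation (jq (EQ W))) ∧
        (W.InZeroComponentAt A Q → A.valuation b = A.valuation (jq (EQ W)) ^ N)) := by
  classical
  have hQ0 : Q ≠ 0 := by
    rintro rfl
    rw [addOrderOf_zero] at hQord
    exact hp.out.one_lt.ne hQord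
  have hNQ : N • Q = 0 := by rw [← hQord]; exact addOrderOf_nsmul_eq_zero Q
  have hodd : N % 2 = 1 := (hp.out.eq_two_or_odd).resolve_left hN2
  have hΔ' : (W.map (Int.castRingHom ℚ)).Δ ≠ 0 := by
    rw [WeierstrassCurve.map_Δ]
    simpa using hΔ
  obtain ⟨pt, p1, p2, p3, p4, p5, p6⟩ :=
    Fermat.Agent.Moduli.exists_moduli (W.map (Int.castRingHom ℚ)) hΔ' hodd hΦ
  have hshape := DR.Mod2.modPolyShape hΦ
  obtain ⟨i₀, hi₀, -, hj₀⟩ := p3 Q hQ0 hNQ
  obtain ⟨x, hx1, hx2⟩ := p6 i₀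
  rw [← hj₀] at hx2
  have hfixb : ∀ σ : Qb ≃ₐ[ℚ] Qb, σ (veluJ (EQ W) Q N) = veluJ (EQ W) Q N := fun σ =>
    sigma_veluJ W σ Q (hQfix σ) N
  have hroot := p5 i₀
  rw [← hj₀] at hroot
  have hder : (derivative (PhiR Φ (veluJ (EQ W) Q N))).eval (jq (EQ W)) ≠ 0 := by
    obtain ⟨A, hA⟩ := FrobExists.exists_liesOverPrime Qb hq
    refine deriv_ne_zero (v := A.valuation) hp.out.two_le hshape
      (one_lt_v_jq W hΔ hq hqΔ hqc hA) ?_ hroot
    exact v_veluJ_of_notMem W hΔ hq hqΔ hqc hA hp.out hN2 hqN hNQ (hqQ A hA)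
  refine ⟨veluJ (EQ W) Q N, x, hx1, hx2, fun σ => ?_, hfixb, ?_⟩
  · exact placeBar_fixed hΦ hroot hder hx1 hx2 σ (sigma_jq W σ) (hfixb σ)
  · intro ℓ hℓ hNℓ hℓΔ hℓc A hA
    refine ⟨fun h => v_veluJ_of_notMem W hΔ hℓ hℓΔ hℓc hA hp.out hN2 hNℓ hNQ h, fun h => ?_⟩
    have hcard : Fintype.card (Option (Fin N)) = N + 1 := by simp
    have hj1 : veluJ (EQ W) Q N = veluJ (EQ W) (pt i₀) N := hj₀
    rw [hj1]
    refine v_last_root (v := A.valuation) (Φ := Φ) hcard hp.out.two_le hshape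
      (one_lt_v_jq W hΔ hℓ hℓΔ hℓc hA) (r := fun i => veluJ (EQ W) (pt i) N) p2 i₀ ?_
    intro i hi
    refine v_veluJ_of_notMem W hΔ hℓ hℓΔ hℓc hA hp.out hN2 hNℓ (p1 i).2 fun hin => hi ?_
    have h1 : pt i ∈ AddSubgroup.zmultiples Q :=
      mem_zmultiples_of_inZero W hΔ hℓ hℓΔ hℓc hA hp.out hN2 hNℓ hNQ hQ0 (p1 i).2 h hin
    refine p4 i i₀ ?_
    obtain ⟨m, hm⟩ := AddSubgroup.mem_zmultiples_iff.mp h1
    obtain ⟨k, hk⟩ := AddSubgroup.mem_zmultiples_iff.mp hi₀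
    exact AddSubgroup.mem_zmultiples_iff.mpr ⟨m * k, by rw [mul_zsmul, hk, hm]⟩

end Final

end Fermat.Agent.Mazur.Moduli
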