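import Fermat.Agent.Mazur.Moduli.LocalVelu
import Fermat.Agent.LOC.Component
import Fermat.Agent.Descent.LocTwo

/-! # The identity component at a multiplicative prime and the Vélu curve (curves over `ℤ`) -/

set_option autoImplicit false

namespace Fermat.Agent.Mazur.Moduli

open WeierstrassCurve WeierstrassCurve.Affine Fermat.Agent.ECRed Fermat.Agent.LOC
open Fermat.Agent.RedHom

local notation "Qb" => AlgebraicClosure ℚ

/-- The curve `W` over `ℚ̄`. -/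
noncomputable abbrev EQ (W : WeierstrassCurve ℤ) : WeierstrassCurve Qb :=
  (W.map (Int.castRingHom ℚ)).baseChange Qb

variable (W : WeierstrassCurve ℤ) {ℓ N : ℕ} {A : ValuationSubring Qb}

/-- Components of the `N`-torsion, in terms of `InZeroComponentAt`. -/
theorem exists_comp_int (hΔ : W.Δ ≠ 0) (hℓ : ℓ.Prime) (hℓΔ : (ℓ : ℤ) ∣ W.Δ)
    (hℓc : ¬ (ℓ : ℤ) ∣ W.c₄) (hA : A.LiesOverPrime ℓ) (hN : N.Prime) (hN2 : N ≠ 2) (hNℓ : N ≠ ℓ) :
    ∃ Cmp : (EQ W).toAffine.Point → ℤ → Prop,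
      (∀ P, N • P = 0 → ∃ a, Cmp P a) ∧ Cmp 0 0 ∧
      (∀ P Q a b, Cmp P a → Cmp Q b → Cmp (P + Q) (a + b)) ∧
      (∀ P a b, Cmp P a → Cmp P b → (N : ℤ) ∣ b - a) ∧
      (∃ P, N • P = 0 ∧ Cmp P 1) ∧
      (∀ P a, N • P = 0 → Cmp P a → (W.InZeroComponentAt A P ↔ (N : ℤ) ∣ a)) ∧
      (∀ P a, Cmp P a → ¬ (N : ℤ) ∣ a →
        A.valuation (veluJ (EQ W) P N) ^ N = A.valuation (jq (EQ W))) := by
  have hcop : ∀ n : ℤ, ¬ (ℓ : ℤ) ∣ n → IsCoprime n ((ℓ : ℕ) : ℤ) := fun n hn =>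
    ((Nat.prime_iff_prime_int.mp hℓ).coprime_iff_not_dvd.mpr hn).symm
  have hvN : A.valuation (N : Qb) = 1 :=
    valuation_nat_eq_one A hA ((Nat.coprime_primes hN hℓ).mpr hNℓ)
  have hI := intCoeff_baseChange_int (L := Qb) W A.valuation
  obtain ⟨Cmp, c1, c2, c3, c4, c5, c6, c7⟩ := exists_comp_velu (W := EQ W) (v := A.valuation)
    two_ne_zero three_ne_zero hI
    (by rw [baseChange_int_c₄]; exact valuation_int_eq_one A hA (hcop _ hℓc))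
    (by rw [baseChange_int_Δ]; exact valuation_int_lt_one A hA hℓΔ)
    (by rw [baseChange_int_Δ]; exact_mod_cast hΔ) hN hN2 hvN
  refine ⟨Cmp, c1, c2, c3, c4, c5, ?_, c7⟩
  intro P a hP ha
  rcases P with _ | ⟨x, y, h⟩
  · refine iff_of_true (Or.inl rfl) ?_
    have := c4 _ _ _ c2 ha
    rwa [sub_zero] at this
  · classical
    rw [inZeroComponentAt_iff, some_mem_E0_iff_valuation, ← c6 x y h a hP ha]
    obtain ⟨hx, -⟩ := v_le_one_of_torsion hI h hvN hP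
    constructor
    · rintro (h1 | h1)
      · exact absurd hx (not_le.mpr h1)
      · exact h1
    · exact Or.inr

/-- **Vélu at a multiplicative prime, `Q` not in the identity component.** -/
theorem v_veluJ_of_notMem (hΔ : W.Δ ≠ 0) (hℓ : ℓ.Prime) (hℓΔ : (ℓ : ℤ) ∣ W.Δ)
    (hℓc : ¬ (ℓ : ℤ) ∣ W.c₄) (hA : A.LiesOverPrime ℓ) (hN : N.Prime) (hN2 : N ≠ 2) (hNℓ : N ≠ ℓ)
    {Q : (EQ W).toAffine.Point} (hQ : N • Q = 0) (hQ' : ¬ W.InZeroComponentAt A Q) :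
    A.valuation (veluJ (EQ W) Q N) ^ N = A.valuation (jq (EQ W)) := by
  obtain ⟨Cmp, c1, -, -, -, -, c6, c7⟩ := exists_comp_int W hΔ hℓ hℓΔ hℓc hA hN hN2 hNℓ
  obtain ⟨a, ha⟩ := c1 Q hQ
  exact c7 Q a ha fun hd => hQ' ((c6 Q a hQ ha).mpr hd)

/-- The `N`-torsion of the identity component is cyclic. -/
theorem mem_zmultiples_of_inZero (hΔ : W.Δ ≠ 0) (hℓ : ℓ.Prime) (hℓΔ : (ℓ : ℤ) ∣ W.Δ)
    (hℓc : ¬ (ℓ : ℤ) ∣ W.c₄) (hA : A.LiesOverPrime ℓ) (hN : N.Prime) (hN2 : N ≠ 2) (hNℓ : N ≠ ℓ)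
    {Q R : (EQ W).toAffine.Point} (hQ : N • Q = 0) (hQ0 : Q ≠ 0) (hR : N • R = 0)
    (hQ' : W.InZeroComponentAt A Q) (hR' : W.InZeroComponentAt A R) :
    R ∈ AddSubgroup.zmultiples Q := by
  by_contra hRQ
  obtain ⟨Cmp, c1, c2, c3, c4, ⟨P, hP, hP1⟩, c6, -⟩ :=
    exists_comp_int W hΔ hℓ hℓΔ hℓc hA hN hN2 hNℓ
  obtain ⟨a, ha⟩ := c1 Q hQ
  obtain ⟨b, hb⟩ := c1 R hR
  have ha' := (c6 Q a hQ ha).mp hQ'
  have hb' := (c6 R b hR hb).mp hR'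
  have hell : (EQ W).IsElliptic := by
    refine ⟨isUnit_iff_ne_zero.mpr ?_⟩
    rw [baseChange_int_Δ]; exact_mod_cast hΔ
  obtain ⟨k, j, hkj⟩ := Descent.TwoAux.exists_eq_nsmul_add (W := EQ W) hN
    (by exact_mod_cast hN.ne_zero) hQ hQ0 hR hRQ hP
  have cn : ∀ (n : ℕ) P a, Cmp P a → Cmp (n • P) (n * a) := by
    intro n P a hP
    induction n with
    | zero => simpa using c2
    | succ n ih =>
      rw [succ_nsmul, Nat.cast_succ, add_mul, one_mul]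
      exact c3 _ _ _ _ ih hP
  have h1 := c3 _ _ _ _ (cn k _ _ hb) (cn j _ _ ha)
  rw [← hkj] at h1
  have h2 := c4 _ _ _ h1 hP1
  have h3 : (N : ℤ) ∣ 1 := by
    have h4 : (N : ℤ) ∣ k * b + j * a := dvd_add (hb'.mul_left _) (ha'.mul_left _)
    have := dvd_add h2 h4
    rwa [sub_add_cancel] at this
  exact hN.one_lt.ne' (by exact_mod_cast Int.eq_one_of_dvd_one (by positivity) h3)

end Fermat.Agent.Mazur.Moduli
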