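import Fermat.Agent.Mazur.Moduli.VeluDef
import Fermat.Agent.Descent.LocNF
import Fermat.Agent.LOC.Multiplicative

/-! # The Vélu curve at a place of multiplicative reduction

For `P` of odd prime order `N` not in the identity component, `v (j (W / ⟨P⟩)) ^ N = v (j W)`. -/

set_option autoImplicit false

namespace Fermat.Agent.Mazur.Moduli

open WeierstrassCurve WeierstrassCurve.Affine Fermat.Agent.ECRed Fermat.Agent.LOC.TatePhi
open Fermat.Agent.LOC.TateHom Fermat.Agent.LOC Fermat.Agent.Descent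

variable {K Γ₀ : Type*} [Field K] [LinearOrderedCommGroupWithZero Γ₀] {v : Valuation K Γ₀} {c : K}

lemma nf_b₂ : (nf c).b₂ = 1 := by simp [WeierstrassCurve.b₂]

lemma nf_b₄ : (nf c).b₄ = 0 := by simp [WeierstrassCurve.b₄]

lemma nf_b₆ : (nf c).b₆ = 4 * c := by simp [WeierstrassCurve.b₆]

lemma nf_c₄ : (nf c).c₄ = 1 := by simp [WeierstrassCurve.c₄, nf_b₂, nf_b₄]

lemma v_jq_nf (hc1 : v c < 1) : v (jq (nf c)) = (v c)⁻¹ := by
  have v432 : v (432 : K) ≤ 1 := by simpa using v_nat_le_one (v := v) 432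
  rw [jq, nf_c₄, nf_Δ, one_pow, map_div₀, map_one, map_mul, Valuation.map_neg,
    v.map_one_add_of_lt (v_imul_lt v432 hc1), mul_one, one_div]

lemma veluC_nf_Δ (t w : K) : (veluC (nf c) t w).Δ = t + (7 * w - c + t * (25 * t) +
    t * t * (8000 * t) - (c - t - 7 * w) * (432 * (c - t - 7 * w)) -
    t * (360 * (c - t - 7 * w))) := by
  simp only [veluC, WeierstrassCurve.Δ, WeierstrassCurve.b₂, WeierstrassCurve.b₄,
    WeierstrassCurve.b₆, WeierstrassCurve.b₈, nf]
  ring

/-- If `v w, v c < v t < 1` then the Vélu curve of `nf c` has `v j = (v t)⁻¹`. -/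
lemma v_jq_veluC {t w : K} (ht : v t < 1) (hw : v w < v t) (hc : v c < v t) :
    v (jq (veluC (nf c) t w)) = (v t)⁻¹ := by
  have i7 : v (7 : K) ≤ 1 := by simpa using v_nat_le_one (v := v) 7
  have i25 : v (25 : K) ≤ 1 := by simpa using v_nat_le_one (v := v) 25
  have i240 : v (240 : K) ≤ 1 := by simpa using v_nat_le_one (v := v) 240
  have i360 : v (360 : K) ≤ 1 := by simpa using v_nat_le_one (v := v) 360
  have i432 : v (432 : K) ≤ 1 := by simpa using v_nat_le_one (v := v) 432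
  have i8000 : v (8000 : K) ≤ 1 := by simpa using v_nat_le_one (v := v) 8000
  have ht0 : 0 < v t := lt_of_le_of_lt zero_le hc
  have small : ∀ {a b : K}, v a ≤ v t → v b < 1 → v (a * b) < v t := by
    intro a b ha hb
    rw [map_mul]
    calc v a * v b ≤ v t * v b := mul_le_mul_left ha _
      _ < v t * 1 := mul_lt_mul_of_pos_left hb ht0
      _ = v t := mul_one _
  have h7w : v (7 * w) < v t := lt_of_le_of_lt (v_imul_le i7 le_rfl) hw
  have ha : v (c - t - 7 * w) ≤ v t :=
    v.map_sub_le (v.map_sub_le hc.le le_rfl) h7w.le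
  have ha1 : v (c - t - 7 * w) < 1 := lt_of_le_of_lt ha ht
  have hΔ : v (veluC (nf c) t w).Δ = v t := by
    rw [veluC_nf_Δ, v.map_add_eq_of_lt_left]
    refine v.map_sub_lt (v.map_sub_lt (v.map_add_lt (v.map_add_lt (v.map_sub_lt h7w hc) ?_) ?_)
      ?_) ?_
    · exact small le_rfl (v_imul_lt i25 ht)
    · rw [mul_assoc]
      exact small le_rfl (v_imul_lt ht.le (v_imul_lt i8000 ht))
    · exact small ha (v_imul_lt i432 ha1)
    · exact small le_rfl (v_imul_lt i360 ha1)
  have hc4 : v (veluC (nf c) t w).c₄ = 1 := by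
    rw [veluC_c₄, nf_c₄, v.map_one_add_of_lt (v_imul_lt i240 ht)]
  rw [jq, map_div₀, map_pow, hc4, hΔ, one_pow, one_div]

section Main

variable [DecidableEq K]

/-- **Vélu at a multiplicative place, `P` not in the identity component** (normal form). -/
theorem v_veluJ_nf {hc1 : v c < 1} {hc : c ≠ 0} {N : ℕ} (hN : N.Prime) (hN2 : N ≠ 2)
    {P : (nf c).toAffine.Point} {a : ℤ} (hP : HasComp hc1 hc N P a) (ha : ¬ (N : ℤ) ∣ a) :
    v (veluJ (nf c) P N) ^ N = v (jq (nf c)) := by
  have hodd := hN.odd_of_ne_two hN2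
  have hvc : 0 < v c := by rwa [Valuation.pos_iff]
  have hpp : Prime (N : ℤ) := Nat.prime_iff_prime_int.mp hN
  have hN0 : N ≠ 0 := hN.ne_zero
  set s := Finset.Icc 1 ((N - 1) / 2) with hs
  have hsN : ∀ k ∈ s, 1 ≤ k ∧ 2 * k ≤ N - 1 := by
    intro k hk
    rw [hs, Finset.mem_Icc] at hk
    omega
  have hnd : ∀ k ∈ s, ¬ (N : ℤ) ∣ k * a := by
    intro k hk hd
    obtain ⟨h1, h2⟩ := hsN k hk
    rcases hpp.dvd_or_dvd hd with h | h
    · have := Nat.le_of_dvd (by omega) (by exact_mod_cast h : N ∣ k)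
      omega
    · exact ha h
  -- the points `k P`
  have hpt : ∀ k ∈ s, v (px (k • P)) < 1 ∧ v (px (k • P)) ^ N = v c ^ mu N (k * a) := by
    intro k hk
    have h1 := hP.nsmul k
    rcases hQ : k • P with _ | ⟨x, y, h⟩
    · exfalso
      rw [hQ] at h1
      have h2 : HasComp hc1 hc N (Point.zero : (nf c).toAffine.Point) 0 := HasComp.zero
      have := h2.congr h1
      rw [sub_zero] at this
      exact hnd k hk this
    · rw [hQ] at h1
      rcases h1.x_val hodd with ⟨-, h2⟩ | ⟨h2, -, h3⟩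
      · exact absurd h2 (hnd k hk)
      · exact ⟨h2, h3⟩
  -- the dominant term
  obtain ⟨k₀, hk₀, hmu₀, huniq⟩ : ∃ k₀ ∈ s, mu N (k₀ * a) = 1 ∧
      ∀ k ∈ s, k ≠ k₀ → 2 ≤ mu N (k * a) := by
    obtain ⟨b, e, hbe⟩ := (hpp.coprime_iff_not_dvd.mpr ha).symm
    -- `b a + e N = 1`
    have hb : ¬ (N : ℤ) ∣ b := by
      intro hd
      apply hpp.not_isUnit
      rw [Int.isUnit_iff]
      have : (N : ℤ) ∣ 1 := by
        rw [← hbe]
        exact dvd_add (hd.mul_right _) (Dvd.intro_left _ rfl)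
      rcases Int.isUnit_iff.mp (isUnit_of_dvd_one this) with h | h
      · left; exact h
      · right; exact h
    have hmb0 : mu N b ≠ 0 := by rwa [Ne, mu_eq_zero_iff hN.pos]
    have hmb1 := two_mu_le hodd b
    have hk₀ : mu N b ∈ s := by rw [hs, Finset.mem_Icc]; omega
    have hone : mu N 1 = 1 := by
      have h1 : (1 : ℤ) % N = 1 := Int.emod_eq_of_lt (by norm_num) (by exact_mod_cast hN.one_lt)
      rw [mu, h1]
      have := hN.two_le
      have h3 : N ≠ 2 := hN2
      simp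
      omega
    have hnone : mu N (-1) = 1 := by
      rcases mu_spec hN.pos (-1) with h | h
      · have h2 := two_mu_lt hodd (-1)
        have h3 : mu N (-1) ≠ 0 := by
          rw [Ne, mu_eq_zero_iff hN.pos]
          intro hd
          have : (N : ℤ) ∣ 1 := by simpa using hd
          have := Int.eq_one_of_dvd_one (by positivity) this
          exact hN.one_lt.ne' (by exact_mod_cast this)
        have := Int.le_of_dvd (by omega) h
        omega
      · have h2 := two_mu_lt hodd (-1)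
        have h3 : mu N (-1) ≠ 0 := by
          rw [Ne, mu_eq_zero_iff hN.pos]
          intro hd
          have : (N : ℤ) ∣ 1 := by simpa using hd
          have := Int.eq_one_of_dvd_one (by positivity) this
          exact hN.one_lt.ne' (by exact_mod_cast this)
        by_contra h4
        have := Int.le_of_dvd (by omega) h
        omega
    have hval : mu N ((mu N b : ℕ) * a) = 1 := by
      rcases mu_spec hN.pos b with h | h
      · rw [← hone]
        refine mu_congr ?_
        obtain ⟨m, hm⟩ := h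
        refine ⟨m * a - e, ?_⟩
        linear_combination a * hm + hbe
      · rw [← hnone]
        refine mu_congr ?_
        obtain ⟨m, hm⟩ := h
        refine ⟨m * a + e, ?_⟩
        linear_combination a * hm - hbe
    refine ⟨mu N b, hk₀, hval, ?_⟩
    intro k hk hne
    by_contra hlt
    push Not at hlt
    have h1 : mu N (k * a) ≠ 0 := by rw [Ne, mu_eq_zero_iff hN.pos]; exact hnd k hk
    have h2 : mu N (k * a) = 1 := by omega
    have h3 := mu_spec hN.pos (k * a)
    have h4 := mu_spec hN.pos ((mu N b : ℕ) * a)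
    rw [h2] at h3
    rw [hval] at h4
    obtain ⟨g1, g2⟩ := hsN k hk
    obtain ⟨g3, g4⟩ := hsN _ hk₀
    have key : (N : ℤ) ∣ ((k : ℤ) - (mu N b : ℕ)) * a ∨ (N : ℤ) ∣ ((k : ℤ) + (mu N b : ℕ)) * a := by
      rcases h3 with h3 | h3 <;> rcases h4 with h4 | h4
      · left; have := dvd_sub h4 h3
        have e1 : ((1 : ℕ) : ℤ) - (mu N b : ℕ) * a - (((1 : ℕ) : ℤ) - k * a) =
          ((k : ℤ) - (mu N b : ℕ)) * a := by ring
        rwa [e1] at this
      · right; have := dvd_sub h4 h3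
        have e1 : ((1 : ℕ) : ℤ) + (mu N b : ℕ) * a - (((1 : ℕ) : ℤ) - k * a) =
          ((k : ℤ) + (mu N b : ℕ)) * a := by ring
        rwa [e1] at this
      · right; have := dvd_sub h3 h4
        have e1 : ((1 : ℕ) : ℤ) + k * a - (((1 : ℕ) : ℤ) - (mu N b : ℕ) * a) =
          ((k : ℤ) + (mu N b : ℕ)) * a := by ring
        rwa [e1] at this
      · left; have := dvd_sub h3 h4
        have e1 : ((1 : ℕ) : ℤ) + k * a - (((1 : ℕ) : ℤ) + (mu N b : ℕ) * a) =
          ((k : ℤ) - (mu N b : ℕ)) * a := by ring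
        rwa [e1] at this
    rcases key with h5 | h5
    · rcases hpp.dvd_or_dvd h5 with h6 | h6
      · have := Int.eq_zero_of_abs_lt_dvd h6 (by rw [abs_lt]; constructor <;> omega)
        exact hne (by omega)
      · exact ha h6
    · rcases hpp.dvd_or_dvd h5 with h6 | h6
      · have := Int.le_of_dvd (by omega) h6
        omega
      · exact ha h6
  have hx₀ := hpt k₀ hk₀
  rw [hmu₀, pow_one] at hx₀
  set x₀ := px (k₀ • P) with hx₀def
  have hx₀pos : 0 < v x₀ := by
    rw [Valuation.pos_iff]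
    intro h0
    rw [h0, map_zero, zero_pow hN0] at hx₀
    exact hvc.ne hx₀.2
  have hlt : ∀ k ∈ s, k ≠ k₀ → v (px (k • P)) < v x₀ := by
    intro k hk hne
    refine lt_of_pow_lt_pow_left₀ N zero_le ?_
    rw [(hpt k hk).2, hx₀.2]
    calc v c ^ mu N (k * a) ≤ v c ^ 2 := pow_right_anti₀ zero_le hc1.le (huniq k hk hne)
      _ < v c ^ 1 := pow_lt_pow_right_of_lt_one₀ hvc hc1 (by norm_num)
      _ = v c := pow_one _
  have hle : ∀ k ∈ s, v (px (k • P)) ≤ v x₀ := by
    intro k hk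
    rcases eq_or_ne k k₀ with rfl | hne
    · exact le_rfl
    · exact (hlt k hk hne).le
  have i2 : v (2 : K) ≤ 1 := v_two_le_one
  have i4 : v (4 : K) ≤ 1 := by simpa using v_nat_le_one (v := v) 4
  have i6 : v (6 : K) ≤ 1 := by simpa using v_nat_le_one (v := v) 6
  have i10 : v (10 : K) ≤ 1 := by simpa using v_nat_le_one (v := v) 10
  -- `vt`
  have hvt : ∀ k ∈ s, v (vt (nf c) (px (k • P))) = v (px (k • P)) := by
    intro k hk
    have e : vt (nf c) (px (k • P)) = px (k • P) * (1 + 6 * px (k • P)) := by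
      rw [vt, nf_b₂, nf_b₄]; ring
    rw [e, map_mul, v.map_one_add_of_lt (v_imul_lt i6 (hpt k hk).1), mul_one]
  have ht : v (veluT (nf c) P N) = v x₀ := by
    rw [veluT, Valuation.map_sum_eq_of_lt v hk₀ ?_, hvt k₀ hk₀]
    · intro k hk
      rw [Finset.mem_sdiff, Finset.mem_singleton] at hk
      rw [hvt k hk.1, hvt k₀ hk₀]
      exact hlt k hk.1 hk.2
  have hcx : v c < v x₀ := by
    rw [← hx₀.2]
    calc v x₀ ^ N < v x₀ ^ 1 := pow_lt_pow_right_of_lt_one₀ hx₀pos hx₀.1 hN.one_lt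
      _ = v x₀ := pow_one _
  have hsq : v x₀ ^ 2 < v x₀ := by
    calc v x₀ ^ 2 < v x₀ ^ 1 := pow_lt_pow_right_of_lt_one₀ hx₀pos hx₀.1 (by norm_num)
      _ = v x₀ := pow_one _
  have hw : v (veluW (nf c) P N) < v (veluT (nf c) P N) := by
    rw [ht, veluW]
    refine Valuation.map_sum_lt v hx₀pos.ne' fun k hk => ?_
    have e : vw (nf c) (px (k • P)) = px (k • P) ^ 2 * (10 * px (k • P) + 2) + 4 * c := by
      rw [vw, nf_b₂, nf_b₄, nf_b₆]; ring
    have h1 := hpt k hk
    rw [e]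
    refine v.map_add_lt ?_ (lt_of_le_of_lt (v_imul_le i4 le_rfl) hcx)
    rw [mul_comm]
    refine lt_of_le_of_lt (v_imul_le (v.map_add_le (v_imul_le i10 h1.1.le) i2) ?_) hsq
    rw [map_pow]
    exact pow_le_pow_left₀ zero_le (hle k hk) 2
  rw [veluJ, velu, v_jq_veluC (by rw [ht]; exact hx₀.1) hw (by rw [ht]; exact hcx), ht,
    v_jq_nf hc1, inv_pow, hx₀.2]

end Main

section Transfer

variable {W : WeierstrassCurve K} {x₀ y₀ α β : K}

/-- An integral point has nonsingular reduction iff it does not reduce to the node. -/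
lemma nonsingAt_iff (h : NodeCentre v W x₀ y₀ α β) (hI : IntCoeff v W) {x y : K}
    (hxy : W.toAffine.Equation x y) (hx : v x ≤ 1) (hy : v y ≤ 1) :
    NonsingAt v W x y ↔ 1 ≤ v (x - x₀) := by
  constructor
  · intro hns
    by_contra hlt
    push Not at hlt
    -- the ordinate is close to `y₀`
    have hE : (y - y₀ - α * (x - x₀)) * (y - y₀ - β * (x - x₀)) = (x - x₀) ^ 3 -
        (y₀ ^ 2 + W.a₁ * x₀ * y₀ + W.a₃ * y₀ - (x₀ ^ 3 + W.a₂ * x₀ ^ 2 + W.a₄ * x₀ + W.a₆)) := by
      have e0 := (equation_iff x y).mp hxy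
      have h1 := h.hX
      have h2 := h.hY
      have h3 := h.sum
      have h4 := h.prod
      linear_combination e0 + (x - x₀) * h1 - (y - y₀) * h2 + (x - x₀) ^ 2 * h4 -
        (x - x₀) * (y - y₀) * h3
    have hsmall : v ((y - y₀ - α * (x - x₀)) * (y - y₀ - β * (x - x₀))) < 1 := by
      rw [hE]
      refine v.map_sub_lt ?_ h.hF
      rw [map_pow]; exact pow_lt_one₀ zero_le hlt (by norm_num)
    have hyy : v (y - y₀) < 1 := by
      rw [map_mul] at hsmall
      have hα : v (α * (x - x₀)) < 1 := v_imul_lt h.int_α hlt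
      have hβ : v (β * (x - x₀)) < 1 := v_imul_lt h.int_β hlt
      by_contra hge
      push Not at hge
      have e1 : v (y - y₀ - α * (x - x₀)) = v (y - y₀) :=
        v.map_sub_eq_of_lt_left (lt_of_lt_of_le hα hge)
      have e2 : v (y - y₀ - β * (x - x₀)) = v (y - y₀) :=
        v.map_sub_eq_of_lt_left (lt_of_lt_of_le hβ hge)
      rw [e1, e2] at hsmall
      refine absurd ?_ (not_le.mpr hsmall)
      calc 1 ≤ v (y - y₀) := hge
        _ = 1 * v (y - y₀) := (one_mul _).symm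
        _ ≤ v (y - y₀) * v (y - y₀) := mul_le_mul_left hge _
    have c1 : v (2 * y + W.a₁ * x + W.a₃) < 1 := by
      have e : 2 * y + W.a₁ * x + W.a₃ = 2 * (y - y₀) + W.a₁ * (x - x₀) := by
        linear_combination h.hY
      rw [e]
      exact v.map_add_lt (v_imul_lt v_two_le_one hyy) (v_imul_lt hI.a₁ hlt)
    have c2 : v (3 * x ^ 2 + 2 * W.a₂ * x + W.a₄ - W.a₁ * y) < 1 := by
      have e : 3 * x ^ 2 + 2 * W.a₂ * x + W.a₄ - W.a₁ * y =
          (3 * (x + x₀) + 2 * W.a₂) * (x - x₀) - W.a₁ * (y - y₀) := by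
        linear_combination h.hX
      rw [e]
      refine v.map_sub_lt (v_imul_lt ?_ hlt) (v_imul_lt hI.a₁ hyy)
      exact v.map_add_le (v_imul_le v_three_le_one (v.map_add_le hx h.int_x))
        (v_imul_le v_two_le_one hI.a₂)
    rcases hns with h5 | h5
    · rw [h5] at c1; exact lt_irrefl _ c1
    · rw [h5] at c2; exact lt_irrefl _ c2
  · intro h1
    exact nonsing_of_far h hxy hx hy
      (le_antisymm ((v.map_sub _ _).trans (max_le hx h.int_x)) h1) hI

variable [DecidableEq K] [IsAlgClosed K]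

/-- **Components of the `N`-torsion at a place of multiplicative reduction, and Vélu.** -/
theorem exists_comp_velu (h2 : (2 : K) ≠ 0) (h3 : (3 : K) ≠ 0) (hI : IntCoeff v W)
    (hc4 : v W.c₄ = 1) (hΔ1 : v W.Δ < 1) (hΔ : W.Δ ≠ 0) {N : ℕ} (hN : N.Prime) (hN2 : N ≠ 2)
    (hvN : v (N : K) = 1) :
    ∃ Cmp : W.toAffine.Point → ℤ → Prop,
      (∀ P, N • P = 0 → ∃ a, Cmp P a) ∧ Cmp 0 0 ∧
      (∀ P Q a b, Cmp P a → Cmp Q b → Cmp (P + Q) (a + b)) ∧
      (∀ P a b, Cmp P a → Cmp P b → (N : ℤ) ∣ b - a) ∧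
      (∃ P, N • P = 0 ∧ Cmp P 1) ∧
      (∀ x y h a, N • (Point.some x y h : W.toAffine.Point) = 0 →
        Cmp (.some x y h) a → (NonsingAt v W x y ↔ (N : ℤ) ∣ a)) ∧
      (∀ P a, Cmp P a → ¬ (N : ℤ) ∣ a → v (veluJ W P N) ^ N = v (jq W)) := by
  obtain ⟨x₀, y₀, α, β, h⟩ := exists_nodeCentre_of_Δ h2 h3 hI hc4 hΔ1
  have hc1 := h.v_c_lt_one
  have hc := h.c_ne_zero hΔ
  have hodd := hN.odd_of_ne_two hN2
  set c := tateC W x₀ y₀ α β with hcdef
  refine ⟨fun P a => HasComp hc1 hc N (h.equiv P) a, ?_, ?_, ?_, ?_, ?_, ?_, ?_⟩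
  · intro P hP
    exact exists_hasComp (by rw [← map_nsmul, hP, map_zero])
  · change HasComp hc1 hc N (h.equiv 0) 0
    rw [map_zero]; exact HasComp.zero
  · intro P Q a b hP hQ
    rw [map_add]; exact hP.add hQ
  · intro P a b hP hQ
    exact hP.congr hQ
  · obtain ⟨P, hP, hP'⟩ := exists_hasComp_one hc1 hc hN.ne_zero hvN
    refine ⟨h.equiv.symm P, ?_, ?_⟩
    · rw [← map_nsmul, hP, map_zero]
    · change HasComp hc1 hc N (h.equiv (h.equiv.symm P)) 1
      rw [AddEquiv.apply_symm_apply]; exact hP'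
  · intro x y hxy a htor hP
    obtain ⟨hx, hy⟩ := v_le_one_of_torsion hI hxy hvN htor
    rw [nonsingAt_iff h hI hxy.1 hx hy]
    obtain ⟨h', e1⟩ := h.equiv_some hxy
    rw [e1] at hP
    have hv : v ((x - x₀) / (α - β) ^ 2) = v (x - x₀) := by
      rw [map_div₀, map_pow, h.sub, one_pow, div_one]
    rcases hP.x_val hodd with ⟨g1, g2⟩ | ⟨g1, g2, -⟩
    · rw [hv] at g1
      exact iff_of_true g1 g2
    · rw [hv] at g1
      exact iff_of_false (not_le.mpr g1) g2
  · intro P a hP ha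
    have key := v_veluJ_nf hN hN2 hP ha
    have hj : jq (nf c) = jq W := by rw [h.nf_eq, jq_vc]
    have he : ∀ x y g, px ((vcEquivOfEq h.C h.nf_eq).toAddMonoidHom (.some x y g)) =
        (h.C.u : K) ^ 2 * x + h.C.r := by
      intro x y g
      obtain ⟨g', e⟩ := vcEquivOfEq_some h.C h.nf_eq g
      change px (vcEquivOfEq h.C h.nf_eq (.some x y g)) = _
      rw [e]; rfl
    have hne : ∀ k ∈ Finset.Icc 1 ((N - 1) / 2), k • h.equiv P ≠ 0 := by
      intro k hk h0
      have h1 := hP.nsmul k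
      rw [h0] at h1
      have h2 : (N : ℤ) ∣ k * a := by
        have := (HasComp.zero (hc1 := hc1) (hc := hc) (p := N)).congr h1
        rwa [sub_zero] at this
      rw [Finset.mem_Icc] at hk
      rcases (Nat.prime_iff_prime_int.mp hN).dvd_or_dvd h2 with h3 | h3
      · have := Nat.le_of_dvd (by omega) (by exact_mod_cast h3 : N ∣ k)
        omega
      · exact ha h3
    have hv := veluJ_vc W h.C h.nf_eq (vcEquivOfEq h.C h.nf_eq).toAddMonoidHom he
      (P := h.equiv P) (N := N) hne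
    have hP' : (vcEquivOfEq h.C h.nf_eq).toAddMonoidHom (h.equiv P) = P :=
      (vcEquivOfEq h.C h.nf_eq).apply_symm_apply P
    rw [hP'] at hv
    rw [← hv, ← hj]
    exact key

end Transfer

end Fermat.Agent.Mazur.Moduli
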