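import Fermat.Agent.Mazur.Moduli.UniqPlace
import Fermat.Agent.Mazur.Moduli.LocalInt
import Fermat.Agent.Moduli.Place

/-! # Galois-fixed places of `X₀(N)` attached to points with smooth image in the `(j, j')`-plane -/

set_option autoImplicit false

open Polynomial AlgebraicCurve ModularCurve Fermat.Agent.S28

namespace Fermat.Agent.Mazur.Moduli

section Root

theorem phi_sub_dvd {S : Type*} [CommRing S] (Φ : ℤ[X][X]) (s b j : S) :
    s - b ∣ (PhiR Φ s).eval j - (PhiR Φ b).eval j := by
  rw [PhiR, PhiR, eval_map, eval_map, eval₂_eq_sum_range, eval₂_eq_sum_range,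
    ← Finset.sum_sub_distrib]
  refine Finset.dvd_sum fun i _ => ?_
  rw [← sub_mul]
  refine Dvd.dvd.mul_right ?_ _
  have := sub_dvd_eval_sub s b ((Φ.coeff i).map (Int.castRingHom S))
  rwa [eval_map, eval_map] at this

variable {K F : Type*} [Field K] [Field F] [Algebra K F] {j s : F} {a b : K} {x : Place K F}

theorem val_const_le (x : Place K F) (c : K) : x.adicValuation (algebraMap K F c) ≤ 1 := by
  rcases eq_or_ne c 0 with rfl | hc
  · rw [map_zero, map_zero]; exact zero_le
  · have hc' : algebraMap K F c ≠ 0 := (_root_.map_ne_zero _).mpr hc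
    rw [(Fermat.FF.ord_eq_zero_iff_val x hc').mp (Fermat.FF.ord_algebraMap _ _)]

theorem val_aeval_le (hx : x.adicValuation (j - algebraMap K F a) < 1) (P : K[X]) :
    x.adicValuation (aeval j P) ≤ 1 := by
  have hj : x.adicValuation j ≤ 1 := by
    have : j = (j - algebraMap K F a) + algebraMap K F a := by ring
    rw [this]
    exact x.adicValuation.map_add_le hx.le (val_const_le x a)
  induction P using Polynomial.induction_on' with
  | add p q hp hq => rw [map_add]; exact x.adicValuation.map_add_le hp hq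
  | monomial n c =>
    rw [aeval_monomial, map_mul, map_pow]
    exact mul_le_one' (val_const_le x c) (pow_le_one₀ zero_le hj)

theorem val_aeval_eq_one (hx : x.adicValuation (j - algebraMap K F a) < 1) {P : K[X]}
    (hP : P.eval a ≠ 0) : x.adicValuation (aeval j P) = 1 := by
  obtain ⟨P₂, hP₂⟩ : X - C a ∣ P - C (P.eval a) := by
    rw [dvd_iff_isRoot, IsRoot, eval_sub, eval_C, sub_self]
  have e : aeval j P = algebraMap K F (P.eval a) + (j - algebraMap K F a) * aeval j P₂ := by
    have : P = C (P.eval a) + (X - C a) * P₂ := by rw [← hP₂]; ring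
    conv_lhs => rw [this]
    simp
  have h1 : x.adicValuation (algebraMap K F (P.eval a)) = 1 := by
    have hc' : algebraMap K F (P.eval a) ≠ 0 := (_root_.map_ne_zero _).mpr hP
    exact (Fermat.FF.ord_eq_zero_iff_val x hc').mp (Fermat.FF.ord_algebraMap _ _)
  rw [e, x.adicValuation.map_add_eq_of_lt_left, h1]
  rw [h1, map_mul]
  exact mul_lt_one_of_lt_of_le hx (val_aeval_le hx P₂)

variable {x₁ x₂ : Place K F}

theorem place_eq_of_root {Φ : ℤ[X][X]}
    (hgen : ∀ f : F, ∃ r ∈ Algebra.adjoin K ({j, s} : Set F),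
      ∃ t ∈ Algebra.adjoin K ({j, s} : Set F), f = r / t)
    (hrel : (PhiR Φ s).eval j = 0) (hab : (PhiR Φ b).eval a = 0)
    (hder : (derivative (PhiR Φ b)).eval a ≠ 0)
    (h₁j : x₁.adicValuation (j - algebraMap K F a) < 1)
    (h₂j : x₂.adicValuation (j - algebraMap K F a) < 1)
    (h₁s : x₁.adicValuation (s - algebraMap K F b) < 1)
    (h₂s : x₂.adicValuation (s - algebraMap K F b) < 1)
    (hs : s - algebraMap K F b ≠ 0) : x₁ = x₂ := by
  obtain ⟨P₁, hP₁⟩ : X - C a ∣ PhiR Φ b := dvd_iff_isRoot.mpr hab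
  have hu : P₁.eval a ≠ 0 := by
    rw [hP₁, derivative_mul] at hder
    simpa using hder
  set R := Algebra.adjoin K ({j, s} : Set F) with hR
  let jR : R := ⟨j, Algebra.subset_adjoin (Set.mem_insert _ _)⟩
  let sR : R := ⟨s, Algebra.subset_adjoin (Set.mem_insert_of_mem _ rfl)⟩
  obtain ⟨G, hG⟩ := phi_sub_dvd Φ sR (algebraMap K R b) jR
  have h1 : (PhiR Φ sR).eval jR = 0 := by
    apply Subtype.val_injective
    have h2 : R.val ((PhiR Φ sR).eval jR) = (PhiR Φ s).eval j := by
      have : PhiR Φ s = (PhiR Φ sR).map (R.val : R →+* F) := by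
        rw [PhiR_map]; rfl
      rw [this, eval_map]
      exact (eval₂_at_apply (R.val : R →+* F) jR).symm
    exact h2.trans hrel
  have h3 : (PhiR Φ (algebraMap K R b)).eval jR = (jR - algebraMap K R a) * aeval jR P₁ := by
    rw [← PhiR_map Φ (algebraMap K R) b, hP₁]
    simp [aeval_def, eval_map]
  rw [h1, h3, zero_sub] at hG
  refine place_eq (K := K) (j := j) (s := s) (a := a) (b := b) hgen h₁j h₂j h₁s h₂s
    (u := aeval j P₁) (G := -(G : F)) ?_ (neg_mem G.2) (val_aeval_eq_one h₁j hu)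
    (val_aeval_eq_one h₂j hu) ?_ hs
  · have : aeval j P₁ = ((aeval jR P₁ : R) : F) := by
      have := aeval_algHom_apply R.val jR P₁
      exact this
    rw [this]
    exact (aeval jR P₁ : R).2
  · have h4 := congrArg (fun z : R => (z : F)) hG
    have h5 : aeval j P₁ = ((aeval jR P₁ : R) : F) := aeval_algHom_apply R.val jR P₁
    rw [h5]
    have h6 : ((-((jR - algebraMap K R a) * aeval jR P₁) : R) : F) =
        -((j - algebraMap K F a) * ((aeval jR P₁ : R) : F)) := rfl
    have h7 : (((sR - algebraMap K R b) * G : R) : F) = (s - algebraMap K F b) * (G : F) := rfl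
    simp only [h6, h7] at h4
    linear_combination -h4

end Root

section MFF

local notation "Qb" => AlgebraicClosure ℚ

variable {N : ℕ} [hp : Fact N.Prime] {Φ : ℤ[X][X]}

theorem exists_primitive_unit (K : Type*) [Field K] [IsAlgClosed K] [CharZero K] (N : ℕ)
    [NeZero N] : ∃ ζ : Kˣ, IsPrimitiveRoot ζ N := by
  have : NeZero (N : K) := ⟨by exact_mod_cast NeZero.ne N⟩
  obtain ⟨z, hz⟩ := HasEnoughRootsOfUnity.exists_primitiveRoot K N
  exact ⟨(hz.isUnit (NeZero.ne N)).unit, IsPrimitiveRoot.coe_units_iff.mp hz⟩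

theorem expansions_eq (K : Type*) [Field K] (N : ℕ) [hp : Fact N.Prime] :
    divisorExpansionsC K N = {jqModC K, qExpand K N (jqModC K)} := by
  ext f
  simp only [divisorExpansionsC, Set.mem_ofPred_eq, Set.mem_insert_iff, Set.mem_singleton_iff]
  constructor
  · rintro ⟨d, hd0, hd, rfl⟩
    rcases (Nat.dvd_prime hp.out).mp hd with rfl | rfl
    · left; rw [qExpand_one_apply]
    · right; rfl
  · rintro (rfl | rfl)
    · exact ⟨1, inferInstance, one_dvd _, (qExpand_one_apply _).symm⟩
    · exact ⟨N, inferInstance, dvd_rfl, rfl⟩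

theorem gen_aux (F : IntermediateField Qb (LaurentSeries Qb))
    (hF : F = modularFunctionFieldFullC Qb N) {j s : F} (hj : (j : LaurentSeries Qb) = jqModC Qb)
    (hs : (s : LaurentSeries Qb) = qExpand Qb N (jqModC Qb)) (f : F) :
    ∃ r ∈ Algebra.adjoin Qb ({j, s} : Set F), ∃ t ∈ Algebra.adjoin Qb ({j, s} : Set F),
      f = r / t := by
  have hf : (f : LaurentSeries Qb) ∈ IntermediateField.adjoin Qb
      ({jqModC Qb, qExpand Qb N (jqModC Qb)} : Set (LaurentSeries Qb)) := by
    have h0 : (f : LaurentSeries Qb) ∈ modularFunctionFieldFullC Qb N := hF ▸ f.2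
    rwa [modularFunctionFieldFullC, expansions_eq] at h0
  rw [IntermediateField.mem_adjoin_iff_div] at hf
  obtain ⟨r, hr, t, ht, e⟩ := hf
  have hmap : (Algebra.adjoin Qb ({j, s} : Set F)).map F.val = Algebra.adjoin Qb
      ({jqModC Qb, qExpand Qb N (jqModC Qb)} : Set (LaurentSeries Qb)) := by
    rw [AlgHom.map_adjoin, Set.image_pair, ← hs, ← hj]
    rfl
  rw [← hmap] at hr ht
  obtain ⟨r', hr', rfl⟩ := hr
  obtain ⟨t', ht', rfl⟩ := ht
  exact ⟨r', hr', t', ht', Subtype.val_injective e⟩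

theorem rel_aux (F : IntermediateField Qb (LaurentSeries Qb)) (hΦ : ModPolySpec N Φ)
    {j s : F} (hj : (j : LaurentSeries Qb) = jqModC Qb)
    (hs : (s : LaurentSeries Qb) = qExpand Qb N (jqModC Qb)) : (PhiR Φ s).eval j = 0 := by
  obtain ⟨ζ, hζ⟩ := exists_primitive_unit Qb N
  have h1 := hΦ.root_low_one hζ (m := 1) one_ne_zero
  rw [jt_one_one, mul_one, jt_one_eq, ← hs, ← hj] at h1
  apply Subtype.val_injective
  have h2 : F.val ((PhiR Φ s).eval j) = (PhiR Φ (s : LaurentSeries Qb)).eval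
      (j : LaurentSeries Qb) := by
    have : PhiR Φ (s : LaurentSeries Qb) = (PhiR Φ s).map (F.val : F →+* LaurentSeries Qb) := by
      rw [PhiR_map]; rfl
    rw [this, eval_map]
    exact (eval₂_at_apply (F.val : F →+* LaurentSeries Qb) j).symm
  exact h2.trans h1

theorem placeC_unique (F : IntermediateField Qb (LaurentSeries Qb))
    (hF : F = modularFunctionFieldFullC Qb N) (hΦ : ModPolySpec N Φ) {a b : Qb}
    (hab : (PhiR Φ b).eval a = 0) (hder : (derivative (PhiR Φ b)).eval a ≠ 0)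
    {x₁ x₂ : Place Qb F}
    (h₁j : ∀ y : F, (y : LaurentSeries Qb) = jqModC Qb → 0 < x₁.ord (y - algebraMap _ _ a))
    (h₁s : ∀ y : F, (y : LaurentSeries Qb) = qExpand Qb N (jqModC Qb) →
      0 < x₁.ord (y - algebraMap _ _ b))
    (h₂j : ∀ y : F, (y : LaurentSeries Qb) = jqModC Qb → 0 < x₂.ord (y - algebraMap _ _ a))
    (h₂s : ∀ y : F, (y : LaurentSeries Qb) = qExpand Qb N (jqModC Qb) →
      0 < x₂.ord (y - algebraMap _ _ b)) : x₁ = x₂ := by
  obtain ⟨j, hj⟩ : ∃ j : F, (j : LaurentSeries Qb) = jqModC Qb :=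
    ⟨⟨_, by rw [hF]; exact jqModC_mem_full Qb N⟩, rfl⟩
  obtain ⟨s, hs⟩ : ∃ s : F, (s : LaurentSeries Qb) = qExpand Qb N (jqModC Qb) :=
    ⟨⟨_, by rw [hF]; exact jqModCd_mem_full Qb N dvd_rfl⟩, rfl⟩
  have hval : ∀ (x : Place Qb F) (y : F) (c : Qb), 0 < x.ord (y - algebraMap _ _ c) →
      x.adicValuation (y - algebraMap Qb F c) < 1 ∧ y - algebraMap Qb F c ≠ 0 := by
    intro x y c hxy
    exact ⟨(Fermat.FF.val_lt_one_iff x).mpr (Or.inr hxy),
      Fermat.FF.ne_zero_of_ord_ne_zero x hxy.ne'⟩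
  exact place_eq_of_root (K := Qb) (j := j) (s := s) (a := a) (b := b) (Φ := Φ)
    (gen_aux F hF hj hs) (rel_aux F hΦ hj hs) hab hder
    (hval x₁ _ _ (h₁j j hj)).1 (hval x₂ _ _ (h₂j j hj)).1 (hval x₁ _ _ (h₁s s hs)).1
    (hval x₂ _ _ (h₂s s hs)).1 (hval x₁ _ _ (h₁s s hs)).2

/-- **Uniqueness of the place with given `j`, `j_N`, at a smooth point.** -/
theorem placeBar_unique (hΦ : ModPolySpec N Φ) {a b : Qb}
    (hab : (PhiR Φ b).eval a = 0) (hder : (derivative (PhiR Φ b)).eval a ≠ 0)
    {x₁ x₂ : Place Qb (modularFunctionFieldBar N)}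
    (h₁j : ∀ y : modularFunctionFieldBar N, (y : LaurentSeries Qb) = jqModC Qb →
      0 < x₁.ord (y - algebraMap _ _ a))
    (h₁s : ∀ y : modularFunctionFieldBar N, (y : LaurentSeries Qb) = qExpand Qb N (jqModC Qb) →
      0 < x₁.ord (y - algebraMap _ _ b))
    (h₂j : ∀ y : modularFunctionFieldBar N, (y : LaurentSeries Qb) = jqModC Qb →
      0 < x₂.ord (y - algebraMap _ _ a))
    (h₂s : ∀ y : modularFunctionFieldBar N, (y : LaurentSeries Qb) = qExpand Qb N (jqModC Qb) →
      0 < x₂.ord (y - algebraMap _ _ b)) : x₁ = x₂ :=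
  placeC_unique _ (MFF.modularFunctionFieldBar_eq N) hΦ hab hder h₁j h₁s h₂j h₂s

/-- A place with rational smooth image is fixed by Galois. -/
theorem placeBar_fixed (hΦ : ModPolySpec N Φ) {a b : Qb}
    (hab : (PhiR Φ b).eval a = 0) (hder : (derivative (PhiR Φ b)).eval a ≠ 0)
    {x : Place Qb (modularFunctionFieldBar N)}
    (hj : ∀ y : modularFunctionFieldBar N, (y : LaurentSeries Qb) = jqModC Qb →
      0 < x.ord (y - algebraMap _ _ a))
    (hs : ∀ y : modularFunctionFieldBar N, (y : LaurentSeries Qb) = qExpand Qb N (jqModC Qb) →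
      0 < x.ord (y - algebraMap _ _ b)) (σ : Qb ≃ₐ[ℚ] Qb) (ha : σ a = a) (hb : σ b = b) :
    arithmeticGalois (modularFunctionFieldFull N) σ • x = x := by
  set g := arithmeticGalois (modularFunctionFieldFull N) σ with hg
  have key : ∀ (y : modularFunctionFieldBar N) (c : Qb), σ c = c →
      coeffMap (σ : Qb →+* Qb) (y : LaurentSeries Qb) = y →
      0 < x.ord (y - algebraMap _ _ c) → 0 < (g • x).ord (y - algebraMap _ _ c) := by
    intro y c hc hy h
    have h1 : g • (y - algebraMap Qb (modularFunctionFieldBar N) c) = y - algebraMap _ _ c := by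
      apply Subtype.val_injective
      have h2 : ((g • (y - algebraMap Qb (modularFunctionFieldBar N) c) :
          modularFunctionFieldBar N) : LaurentSeries Qb) = coeffMap (σ : Qb →+* Qb)
            ((y - algebraMap Qb (modularFunctionFieldBar N) c : modularFunctionFieldBar N) :
              LaurentSeries Qb) := coe_arithmeticGalois_smul _ σ _
      have h3 : ((y - algebraMap Qb (modularFunctionFieldBar N) c : modularFunctionFieldBar N) :
              LaurentSeries Qb) = (y : LaurentSeries Qb) - algebraMap Qb (LaurentSeries Qb) c := rfl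
      rw [h2, h3, map_sub, hy, coeffMap_algebraMap]
      congr 2
    rw [← h1, SemilinearAut.ord_smul]
    exact h
  have hjq : coeffMap (σ : Qb →+* Qb) (jqModC Qb) = jqModC Qb := by
    exact coeffMap_jqModC _
  have hjN : coeffMap (σ : Qb →+* Qb) (qExpand Qb N (jqModC Qb)) = qExpand Qb N (jqModC Qb) := by
    rw [coeffMap_qExpand, hjq]
  refine placeBar_unique hΦ hab hder (fun y hy => key y a ha ?_ (hj y hy))
    (fun y hy => key y b hb ?_ (hs y hy)) hj hs
  · rw [hy, hjq]
  · rw [hy, hjN]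

end MFF

end Fermat.Agent.Mazur.Moduli
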