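import Fermat.Agent.FF.Basic
import Fermat.Agent.MFF.CoeffDescent
import Fermat.Agent.S28.JT

/-! # Uniqueness of a place over a smooth point of a plane model

Let `F = K(j, s)` with `Φ(j; s) = 0`.  A place of `F` with `j ↦ a`, `s ↦ b` is unique if `a` is a
simple root of `Φ(X; b)`. -/

set_option autoImplicit false

open Polynomial AlgebraicCurve ModularCurve Fermat.Agent.S28

namespace Fermat.Agent.Mazur.Moduli

section Abstract

variable {K F : Type*} [Field K] [Field F] [Algebra K F] {j s : F} {a b : K}

/-- Elements of `K[j, s]` are constants modulo `(j - a, s - b)`. -/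
theorem exists_const {r : F} (hr : r ∈ Algebra.adjoin K ({j, s} : Set F)) (a b : K) :
    ∃ c : K, ∃ A ∈ Algebra.adjoin K ({j, s} : Set F), ∃ B ∈ Algebra.adjoin K ({j, s} : Set F),
      r = algebraMap K F c + (j - algebraMap K F a) * A + (s - algebraMap K F b) * B := by
  induction hr using Algebra.adjoin_induction with
  | mem x hx =>
    rcases hx with rfl | hx
    · exact ⟨a, 1, one_mem _, 0, zero_mem _, by ring⟩
    · rw [Set.mem_singleton_iff] at hx
      subst hx
      exact ⟨b, 0, zero_mem _, 1, one_mem _, by ring⟩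
  | algebraMap c => exact ⟨c, 0, zero_mem _, 0, zero_mem _, by ring⟩
  | add x y _ _ hx hy =>
    obtain ⟨c, A, hA, B, hB, rfl⟩ := hx
    obtain ⟨c', A', hA', B', hB', rfl⟩ := hy
    exact ⟨c + c', A + A', add_mem hA hA', B + B', add_mem hB hB', by rw [map_add]; ring⟩
  | mul x y hx' hy' hx hy =>
    obtain ⟨c, A, hA, B, hB, e⟩ := hx
    obtain ⟨c', A', hA', B', hB', e'⟩ := hy
    refine ⟨c * c', algebraMap K F c * A' + A * y, add_mem (mul_mem (Subalgebra.algebraMap_mem _ _) hA')
      (mul_mem hA hy'), algebraMap K F c * B' + B * y, add_mem (mul_mem (Subalgebra.algebraMap_mem _ _)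
      hB') (mul_mem hB hy'), ?_⟩
    conv_lhs => rw [e, add_mul, add_mul]
    rw [map_mul]
    conv_lhs => rw [show algebraMap K F c * y = algebraMap K F c * y from rfl]
    nth_rewrite 1 [e']
    ring

variable {x₁ x₂ : Place K F}

/-- **Uniqueness of the place over a smooth point.** -/
theorem place_eq (hgen : ∀ f : F, ∃ r ∈ Algebra.adjoin K ({j, s} : Set F),
      ∃ t ∈ Algebra.adjoin K ({j, s} : Set F), f = r / t)
    (h₁j : x₁.adicValuation (j - algebraMap K F a) < 1)
    (h₂j : x₂.adicValuation (j - algebraMap K F a) < 1)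
    (h₁s : x₁.adicValuation (s - algebraMap K F b) < 1)
    (h₂s : x₂.adicValuation (s - algebraMap K F b) < 1) {u G : F}
    (hu : u ∈ Algebra.adjoin K ({j, s} : Set F)) (hG : G ∈ Algebra.adjoin K ({j, s} : Set F))
    (hu₁ : x₁.adicValuation u = 1) (hu₂ : x₂.adicValuation u = 1)
    (huG : u * (j - algebraMap K F a) = (s - algebraMap K F b) * G)
    (hs : s - algebraMap K F b ≠ 0) : x₁ = x₂ := by
  set R := Algebra.adjoin K ({j, s} : Set F) with hR
  set t := s - algebraMap K F b with ht
  have hcv : ∀ (x : Place K F) (c : K), c ≠ 0 → x.adicValuation (algebraMap K F c) = 1 := by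
    intro x c hc
    have hc' : algebraMap K F c ≠ 0 := (_root_.map_ne_zero _).mpr hc
    rw [← Fermat.FF.ord_eq_zero_iff_val x hc', Fermat.FF.ord_algebraMap]
  have hcv' : ∀ (x : Place K F) (c : K), x.adicValuation (algebraMap K F c) ≤ 1 := by
    intro x c
    rcases eq_or_ne c 0 with rfl | hc
    · rw [map_zero, map_zero]; exact zero_le
    · exact (hcv x c hc).le
  -- `R` is contained in both valuation rings
  have hint : ∀ (x : Place K F), x.adicValuation (j - algebraMap K F a) < 1 →
      x.adicValuation t < 1 → ∀ r ∈ R, x.adicValuation r ≤ 1 := by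
    intro x hxj hxs r hr
    induction hr using Algebra.adjoin_induction with
    | mem y hy =>
      rcases hy with rfl | hy
      · have : y = (y - algebraMap K F a) + algebraMap K F a := by ring
        rw [this]
        exact x.adicValuation.map_add_le hxj.le (hcv' x a)
      · rw [Set.mem_singleton_iff] at hy
        have : y = t + algebraMap K F b := by rw [ht, hy]; ring
        rw [this]
        exact x.adicValuation.map_add_le hxs.le (hcv' x b)
    | algebraMap c => exact hcv' x c
    | add y z _ _ hy hz => exact x.adicValuation.map_add_le hy hz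
    | mul y z _ _ hy hz => rw [map_mul]; exact mul_le_one' hy hz
  -- decomposition of elements of `R`
  have hdec : ∀ n : ℕ, ∀ r ∈ R, r ≠ 0 → x₁.ord r ≤ n → ∃ (m : ℕ) (w : F),
      x₁.adicValuation w = 1 ∧ x₂.adicValuation w = 1 ∧ r = t ^ m * w := by
    intro n
    induction n with
    | zero =>
      intro r hr hr0 hn
      obtain ⟨c, A, hA, B, hB, e⟩ := exists_const hr a b
      have hc : c ≠ 0 := by
        rintro rfl
        have h1 : x₁.adicValuation r < 1 := by
          rw [e, map_zero, zero_add]
          refine x₁.adicValuation.map_add_lt ?_ ?_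
          · rw [map_mul]
            exact mul_lt_one_of_lt_of_le h₁j (hint x₁ h₁j h₁s A hA)
          · rw [map_mul]
            exact mul_lt_one_of_lt_of_le h₁s (hint x₁ h₁j h₁s B hB)
        have := Fermat.FF.ord_pos_of_val_lt_one x₁ hr0 h1
        push_cast at hn
        omega
      refine ⟨0, r, ?_, ?_, by rw [pow_zero, one_mul]⟩
      · rw [e, add_assoc, x₁.adicValuation.map_add_eq_of_lt_left, hcv x₁ c hc]
        rw [hcv x₁ c hc]
        refine x₁.adicValuation.map_add_lt ?_ ?_
        · rw [map_mul]; exact mul_lt_one_of_lt_of_le h₁j (hint x₁ h₁j h₁s A hA)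
        · rw [map_mul]; exact mul_lt_one_of_lt_of_le h₁s (hint x₁ h₁j h₁s B hB)
      · rw [e, add_assoc, x₂.adicValuation.map_add_eq_of_lt_left, hcv x₂ c hc]
        rw [hcv x₂ c hc]
        refine x₂.adicValuation.map_add_lt ?_ ?_
        · rw [map_mul]; exact mul_lt_one_of_lt_of_le h₂j (hint x₂ h₂j h₂s A hA)
        · rw [map_mul]; exact mul_lt_one_of_lt_of_le h₂s (hint x₂ h₂j h₂s B hB)
    | succ n ih =>
      intro r hr hr0 hn
      obtain ⟨c, A, hA, B, hB, e⟩ := exists_const hr a b
      rcases eq_or_ne c 0 with rfl | hc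
      · -- `r ∈ (j - a, s - b)`
        set r' := G * A + u * B with hr'
        have hr'R : r' ∈ R := add_mem (mul_mem hG hA) (mul_mem hu hB)
        have e2 : u * r = t * r' := by
          rw [e, map_zero, zero_add, hr']
          linear_combination A * huG
        have hu0 : u ≠ 0 := by
          rintro rfl
          rw [map_zero] at hu₁
          exact zero_ne_one hu₁
        have hr'0 : r' ≠ 0 := by
          intro h0
          rw [h0, mul_zero] at e2
          exact (mul_ne_zero hu0 hr0) e2
        have hord : x₁.ord r = x₁.ord t + x₁.ord r' := by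
          have h1 := congrArg x₁.ord e2
          rw [x₁.ord_mul hu0 hr0, x₁.ord_mul hs hr'0,
            (Fermat.FF.ord_eq_zero_iff_val x₁ hu0).mpr hu₁, zero_add] at h1
          exact h1
        have htpos := Fermat.FF.ord_pos_of_val_lt_one x₁ hs h₁s
        obtain ⟨m, w, hw1, hw2, e3⟩ := ih r' hr'R hr'0 (by push_cast at hn; omega)
        refine ⟨m + 1, w / u, ?_, ?_, ?_⟩
        · rw [map_div₀, hw1, hu₁, div_one]
        · rw [map_div₀, hw2, hu₂, div_one]
        · rw [e3] at e2
          field_simp
          linear_combination e2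
      · refine ⟨0, r, ?_, ?_, by rw [pow_zero, one_mul]⟩
        · rw [e, add_assoc, x₁.adicValuation.map_add_eq_of_lt_left, hcv x₁ c hc]
          rw [hcv x₁ c hc]
          refine x₁.adicValuation.map_add_lt ?_ ?_
          · rw [map_mul]; exact mul_lt_one_of_lt_of_le h₁j (hint x₁ h₁j h₁s A hA)
          · rw [map_mul]; exact mul_lt_one_of_lt_of_le h₁s (hint x₁ h₁j h₁s B hB)
        · rw [e, add_assoc, x₂.adicValuation.map_add_eq_of_lt_left, hcv x₂ c hc]
          rw [hcv x₂ c hc]
          refine x₂.adicValuation.map_add_lt ?_ ?_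
          · rw [map_mul]; exact mul_lt_one_of_lt_of_le h₂j (hint x₂ h₂j h₂s A hA)
          · rw [map_mul]; exact mul_lt_one_of_lt_of_le h₂s (hint x₂ h₂j h₂s B hB)
  have hdec' : ∀ r ∈ R, r ≠ 0 → ∃ (m : ℕ) (w : F),
      x₁.adicValuation w = 1 ∧ x₂.adicValuation w = 1 ∧ r = t ^ m * w := by
    intro r hr hr0
    exact hdec (x₁.ord r).toNat r hr hr0 (Int.self_le_toNat _)
  -- comparison of the valuation rings
  refine Fermat.FF.place_eq_of_le fun f hf => ?_
  rw [Fermat.FF.mem_iff_val_le_one] at hf ⊢
  obtain ⟨r, hr, r', hr', rfl⟩ := hgen f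
  rcases eq_or_ne r 0 with rfl | hr0
  · rw [zero_div, map_zero]; exact zero_le
  rcases eq_or_ne r' 0 with rfl | hr'0
  · rw [div_zero, map_zero]; exact zero_le
  obtain ⟨m, w, hw1, hw2, e⟩ := hdec' r hr hr0
  obtain ⟨m', w', hw1', hw2', e'⟩ := hdec' r' hr' hr'0
  rw [e, e', map_div₀, map_mul, map_mul, map_pow, map_pow, hw1, hw1', mul_one, mul_one] at hf
  rw [e, e', map_div₀, map_mul, map_mul, map_pow, map_pow, hw2, hw2', mul_one, mul_one]
  have ht1 : 0 < x₁.adicValuation t := by rwa [Valuation.pos_iff]
  have ht2 : 0 < x₂.adicValuation t := by rwa [Valuation.pos_iff]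
  have hmm : m' ≤ m := by
    by_contra hlt
    push Not at hlt
    rw [div_le_one₀ (pow_pos ht1 _)] at hf
    exact absurd (pow_lt_pow_right_of_lt_one₀ ht1 h₁s hlt) (not_lt.mpr hf)
  rw [div_le_one₀ (pow_pos ht2 _)]
  exact pow_right_anti₀ zero_le h₂s.le hmm

end Abstract

end Fermat.Agent.Mazur.Moduli
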