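import Mathlib.AlgebraicGeometry.EllipticCurve.Affine.Point
import Mathlib.Tactic

/-! # The Vélu curve of a cyclic subgroup of odd order

For a point `P` of odd order `N` on a Weierstrass curve `W` over a field, the curve `velu W P N` is
the quotient of `W` by `⟨P⟩` (given by Vélu's formulas; only the formulas are used). -/

set_option autoImplicit false

namespace Fermat.Agent.Mazur.Moduli

open WeierstrassCurve WeierstrassCurve.Affine

section Def

variable {K : Type*} [Field K]

/-- abscissa of a point (`0` for the point at infinity) -/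
def px {W : WeierstrassCurve K} : W.toAffine.Point → K
  | .zero => 0
  | .some x _ _ => x

@[simp] lemma px_some {W : WeierstrassCurve K} {x y : K} (h : W.toAffine.Nonsingular x y) :
    px (.some x y h : W.toAffine.Point) = x := rfl

lemma px_neg {W : WeierstrassCurve K} (P : W.toAffine.Point) : px (-P) = px P := by
  rcases P with _ | ⟨x, y, h⟩ <;> rfl

/-- `6 x² + b₂ x + b₄` -/
def vt (W : WeierstrassCurve K) (x : K) : K := 6 * x ^ 2 + W.b₂ * x + W.b₄

/-- `10 x³ + 2 b₂ x² + 3 b₄ x + b₆` -/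
def vw (W : WeierstrassCurve K) (x : K) : K :=
  10 * x ^ 3 + 2 * W.b₂ * x ^ 2 + 3 * W.b₄ * x + W.b₆

variable [DecidableEq K]

/-- Vélu's `t`, for the subgroup generated by `P` of odd order `N`. -/
noncomputable def veluT (W : WeierstrassCurve K) (P : W.toAffine.Point) (N : ℕ) : K :=
  ∑ k ∈ Finset.Icc 1 ((N - 1) / 2), vt W (px (k • P))

/-- Vélu's `w`, for the subgroup generated by `P` of odd order `N`. -/
noncomputable def veluW (W : WeierstrassCurve K) (P : W.toAffine.Point) (N : ℕ) : K :=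
  ∑ k ∈ Finset.Icc 1 ((N - 1) / 2), vw W (px (k • P))

/-- The Vélu curve with parameters `t` and `w`. -/
def veluC (W : WeierstrassCurve K) (t w : K) : WeierstrassCurve K :=
  ⟨W.a₁, W.a₂, W.a₃, W.a₄ - 5 * t, W.a₆ - W.b₂ * t - 7 * w⟩

/-- The Vélu curve `W / ⟨P⟩`. -/
noncomputable def velu (W : WeierstrassCurve K) (P : W.toAffine.Point) (N : ℕ) :
    WeierstrassCurve K :=
  veluC W (veluT W P N) (veluW W P N)

omit [DecidableEq K] in
lemma veluC_c₄ (W : WeierstrassCurve K) (t w : K) : (veluC W t w).c₄ = W.c₄ + 240 * t := by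
  simp only [veluC, WeierstrassCurve.c₄, WeierstrassCurve.b₂, WeierstrassCurve.b₄]; ring

omit [DecidableEq K] in
lemma veluC_c₆ (W : WeierstrassCurve K) (t w : K) :
    (veluC W t w).c₆ = W.c₆ + 504 * W.b₂ * t + 6048 * w := by
  simp only [veluC, WeierstrassCurve.c₆, WeierstrassCurve.b₂, WeierstrassCurve.b₄,
    WeierstrassCurve.b₆]; ring

lemma velu_c₄ (W : WeierstrassCurve K) (P : W.toAffine.Point) (N : ℕ) :
    (velu W P N).c₄ = W.c₄ + 240 * veluT W P N := veluC_c₄ _ _ _

lemma velu_c₆ (W : WeierstrassCurve K) (P : W.toAffine.Point) (N : ℕ) :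
    (velu W P N).c₆ = W.c₆ + 504 * W.b₂ * veluT W P N + 6048 * veluW W P N := veluC_c₆ _ _ _

/-- The `j`-invariant `c₄³ / Δ` (junk if `Δ = 0`). -/
noncomputable def jq (W : WeierstrassCurve K) : K := W.c₄ ^ 3 / W.Δ

omit [DecidableEq K] in
lemma jq_eq_j (W : WeierstrassCurve K) [W.IsElliptic] : jq W = W.j := by
  rw [jq, WeierstrassCurve.j, Units.val_inv_eq_inv_val, WeierstrassCurve.coe_Δ', div_eq_inv_mul]

omit [DecidableEq K] in
lemma jq_vc (W : WeierstrassCurve K) (C : VariableChange K) : jq (C • W) = jq W := by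
  rw [jq, jq, variableChange_c₄, variableChange_Δ]
  have h : (((C.u⁻¹ : Kˣ) : K)) ≠ 0 := Units.ne_zero _
  rcases eq_or_ne W.Δ 0 with h0 | h0
  · rw [h0, mul_zero, div_zero, div_zero]
  · field_simp

/-- The `j`-invariant of the Vélu curve. -/
noncomputable def veluJ (W : WeierstrassCurve K) (P : W.toAffine.Point) (N : ℕ) : K :=
  jq (velu W P N)

end Def

section Cov

variable {K : Type*} [Field K]

lemma veluC_vc (W : WeierstrassCurve K) (C : VariableChange K) (t w : K) :
    veluC (C • W) ((C.u⁻¹ : Kˣ) ^ 4 * t) ((C.u⁻¹ : Kˣ) ^ 6 * (w - C.r * t)) = C • veluC W t w := by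
  ext
  · simp only [veluC, variableChange_a₁]
  · simp only [veluC, variableChange_a₂]
  · simp only [veluC, variableChange_a₃]
  · simp only [veluC, variableChange_a₄]; ring
  · simp only [veluC, variableChange_a₆, variableChange_b₂]; ring

lemma vt_vc (W : WeierstrassCurve K) (C : VariableChange K) (x : K) :
    vt (C • W) x = (C.u⁻¹ : Kˣ) ^ 4 * vt W ((C.u : K) ^ 2 * x + C.r) := by
  have h := C.u.ne_zero
  rw [vt, vt, variableChange_b₂, variableChange_b₄, Units.val_inv_eq_inv_val]
  field_simp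
  ring

lemma vw_vc (W : WeierstrassCurve K) (C : VariableChange K) (x : K) :
    vw (C • W) x = (C.u⁻¹ : Kˣ) ^ 6 * (vw W ((C.u : K) ^ 2 * x + C.r) -
      C.r * vt W ((C.u : K) ^ 2 * x + C.r)) := by
  have h := C.u.ne_zero
  rw [vw, vw, vt, variableChange_b₂, variableChange_b₄, variableChange_b₆,
    Units.val_inv_eq_inv_val]
  field_simp
  ring

variable [DecidableEq K]

/-- Vélu's construction commutes with changes of variables. -/
theorem velu_vc (W : WeierstrassCurve K) (C : VariableChange K) {W' : WeierstrassCurve K}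
    (hW : W' = C • W) (e : W'.toAffine.Point →+ W.toAffine.Point)
    (he : ∀ x y h, px (e (.some x y h)) = (C.u : K) ^ 2 * x + C.r)
    {P : W'.toAffine.Point} {N : ℕ} (hP : ∀ k ∈ Finset.Icc 1 ((N - 1) / 2), k • P ≠ 0) :
    velu W' P N = C • velu W (e P) N := by
  subst hW
  have hx : ∀ k ∈ Finset.Icc 1 ((N - 1) / 2), px (k • e P) =
      (C.u : K) ^ 2 * px (k • P) + C.r := by
    intro k hk
    rw [← map_nsmul]
    rcases hQ : k • P with _ | ⟨x, y, h⟩
    · exact absurd hQ (hP k hk)
    · rw [he]; rfl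
  have ht : veluT (C • W) P N = (C.u⁻¹ : Kˣ) ^ 4 * veluT W (e P) N := by
    rw [veluT, veluT, Finset.mul_sum]
    exact Finset.sum_congr rfl fun k hk => by rw [hx k hk, vt_vc]
  have hw : veluW (C • W) P N = (C.u⁻¹ : Kˣ) ^ 6 * (veluW W (e P) N - C.r * veluT W (e P) N) := by
    rw [veluW, veluW, veluT, Finset.mul_sum, ← Finset.sum_sub_distrib, Finset.mul_sum]
    exact Finset.sum_congr rfl fun k hk => by rw [hx k hk, vw_vc]
  rw [velu, ht, hw, veluC_vc]; rfl

/-- The `j`-invariant of the Vélu curve is invariant under changes of variables. -/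
theorem veluJ_vc (W : WeierstrassCurve K) (C : VariableChange K) {W' : WeierstrassCurve K}
    (hW : W' = C • W) (e : W'.toAffine.Point →+ W.toAffine.Point)
    (he : ∀ x y h, px (e (.some x y h)) = (C.u : K) ^ 2 * x + C.r)
    {P : W'.toAffine.Point} {N : ℕ} (hP : ∀ k ∈ Finset.Icc 1 ((N - 1) / 2), k • P ≠ 0) :
    veluJ W' P N = veluJ W (e P) N := by
  rw [veluJ, velu_vc W C hW e he hP, jq_vc, veluJ]

end Cov

end Fermat.Agent.Mazur.Moduli
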